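/-
S52 (the 3–5 switch), node [J] (helper10): a semistable integral Weierstrass model has
`j ∉ {0, 1728}`, i.e. `c₄ ≠ 0` and `c₆ ≠ 0`.  Prefix `s52j_`.  Mathlib + Prelude only.

* `s52j_unit_of_no_prime` : a nonzero integer without prime divisors is `±1`;
* `s52j_c4_ne_zero`, `s52j_c6_ne_zero` : the two statements;
* `s52j_j_ne_zero`, `s52j_j_ne_1728` : the same for the `j`-invariant of `W_ℚ`.
-/
import Mathlib
import Fermat.Prelude.Def_FLTPrelim_Modularity

set_option autoImplicit false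

namespace Fermat.Agent.S52

open WeierstrassCurve

/-- a nonzero integer without prime divisors is `±1`. -/
theorem s52j_unit_of_no_prime {d : ℤ} (h : ∀ p : ℕ, p.Prime → ¬ (p : ℤ) ∣ d) :
    d = 1 ∨ d = -1 := by
  have h1 : d.natAbs = 1 := by
    by_contra hne
    obtain ⟨p, hp, hpd⟩ := Nat.exists_prime_and_dvd hne
    exact h p hp (Int.natCast_dvd.mpr hpd)
  exact Int.natAbs_eq_natAbs_iff.mp (by rw [h1]; rfl)

/-- `c₄ ≠ 0` for a semistable integral model. -/
theorem s52j_c4_ne_zero (W : WeierstrassCurve ℤ) (hW : W.IsSemistableModel) : W.c₄ ≠ 0 := by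
  intro h0
  have hΔ : W.Δ = 1 ∨ W.Δ = -1 := s52j_unit_of_no_prime fun p hp hpd => by
    have := hW p hp hpd
    rw [h0] at this
    exact this (dvd_zero _)
  have hrel := W.c_relation
  rw [h0] at hrel
  rcases hΔ with h | h
  · rw [h] at hrel
    nlinarith [sq_nonneg W.c₆]
  · rw [h] at hrel
    -- `c₆ ^ 2 = 1728` is impossible
    have h2 : W.c₆ ^ 2 = 1728 := by linarith
    have h3 : W.c₆ ≤ 41 ∨ 42 ≤ W.c₆ := by omega
    have h4 : -41 ≤ W.c₆ ∨ W.c₆ ≤ -42 := by omega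
    rcases h3 with h3 | h3 <;> rcases h4 with h4 | h4 <;> nlinarith

/-- `c₆ ≠ 0` for a semistable integral model. -/
theorem s52j_c6_ne_zero (W : WeierstrassCurve ℤ) (hW : W.IsSemistableModel) : W.c₆ ≠ 0 := by
  intro h0
  have hrel := W.c_relation
  rw [h0] at hrel
  have hrel' : W.c₄ ^ 3 = 1728 * W.Δ := by linarith
  have hΔ : W.Δ = 1 ∨ W.Δ = -1 := s52j_unit_of_no_prime fun p hp hpd => by
    apply hW p hp hpd
    have hp' : Prime (p : ℤ) := Nat.prime_iff_prime_int.mp hp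
    apply hp'.dvd_of_dvd_pow (n := 3)
    rw [hrel']
    exact Dvd.dvd.mul_left hpd _
  -- `c₄ = ± 12`
  have hc4 : W.c₄ = 12 ∨ W.c₄ = -12 := by
    rcases hΔ with h | h
    · left
      rw [h] at hrel'
      have : W.c₄ ^ 3 = 12 ^ 3 := by rw [hrel']; norm_num
      exact (Odd.strictMono_pow (by decide : Odd 3)).injective this
    · right
      rw [h] at hrel'
      have : W.c₄ ^ 3 = (-12) ^ 3 := by rw [hrel']; norm_num
      exact (Odd.strictMono_pow (by decide : Odd 3)).injective this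
  -- reduce `b₂ ^ 2 - 24 b₄ = ± 12` modulo `8`
  have hkey : ∀ a1 a2 : ZMod 8, (a1 ^ 2 + 4 * a2) ^ 2 ≠ 4 := by decide
  have hc4' : (W.a₁ ^ 2 + 4 * W.a₂) ^ 2 - 24 * W.b₄ = W.c₄ := by
    rw [WeierstrassCurve.c₄, WeierstrassCurve.b₂]
  apply hkey ((W.a₁ : ℤ) : ZMod 8) ((W.a₂ : ℤ) : ZMod 8)
  have h8 : ((24 : ℤ) : ZMod 8) = 0 := by decide
  rcases hc4 with h | h
  · rw [h] at hc4'
    have := congrArg (fun z : ℤ => (z : ZMod 8)) hc4'
    simp only [Int.cast_sub, Int.cast_mul, Int.cast_pow, Int.cast_add, Int.cast_ofNat] at this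
    have h24 : (24 : ZMod 8) = 0 := by decide
    have h12 : (12 : ZMod 8) = 4 := by decide
    rw [h24, zero_mul, sub_zero, h12] at this
    exact this
  · rw [h] at hc4'
    have := congrArg (fun z : ℤ => (z : ZMod 8)) hc4'
    simp only [Int.cast_sub, Int.cast_mul, Int.cast_pow, Int.cast_add, Int.cast_ofNat,
      Int.cast_neg] at this
    have h24 : (24 : ZMod 8) = 0 := by decide
    have h12 : (-12 : ZMod 8) = 4 := by decide
    rw [h24, zero_mul, sub_zero, h12] at this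
    exact this

/-- `j (W_ℚ) ≠ 0`. -/
theorem s52j_j_ne_zero (W : WeierstrassCurve ℤ) (hW : W.IsSemistableModel)
    [(W.map (Int.castRingHom ℚ)).IsElliptic] : (W.map (Int.castRingHom ℚ)).j ≠ 0 := by
  rw [Ne, WeierstrassCurve.j_eq_zero_iff, WeierstrassCurve.map_c₄]
  intro h
  rw [eq_intCast, Int.cast_eq_zero] at h
  exact s52j_c4_ne_zero W hW h

/-- `j (W_ℚ) ≠ 1728`. -/
theorem s52j_j_ne_1728 (W : WeierstrassCurve ℤ) (hW : W.IsSemistableModel)
    [(W.map (Int.castRingHom ℚ)).IsElliptic] : (W.map (Int.castRingHom ℚ)).j ≠ 1728 := by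
  intro h
  rw [WeierstrassCurve.j, Units.inv_mul_eq_iff_eq_mul, WeierstrassCurve.coe_Δ'] at h
  have hrel := (W.map (Int.castRingHom ℚ)).c_relation
  have h6 : (W.map (Int.castRingHom ℚ)).c₆ ^ 2 = 0 := by linarith
  have h6' : (W.map (Int.castRingHom ℚ)).c₆ = 0 := by
    rcases pow_eq_zero_iff (two_ne_zero) |>.mp h6 with h0
    exact h0
  rw [WeierstrassCurve.map_c₆, eq_intCast, Int.cast_eq_zero] at h6'
  exact s52j_c6_ne_zero W hW h6'

end Fermat.Agent.S52
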